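import Fermat.Agent.ModLift.Lift.Bound.Local

/-!
# The local space of a pattern at `p`
-/

set_option autoImplicit false
set_option linter.unusedSectionVars false
set_option linter.style.haveILetI false

noncomputable section

open IsLocalRing

namespace FLTAgent.ModLift.PatternBound

open FLTAgent.TWPrimes FLTAgent.PoitouTate ClassAux LevelTangent

local notation "GG" => (AlgebraicClosure ℚ ≃ₐ[ℚ] AlgebraicClosure ℚ)
local notation "VS" => ValuationSubring (AlgebraicClosure ℚ)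
local notation "Dec" => ValuationSubring.decompositionSubgroup ℚ
local notation "M2" => Matrix (Fin 2) (Fin 2)

variable {W : WeierstrassCurve ℤ} {hΔ : W.Δ ≠ 0} {p : ℕ} [Fact p.Prime] {O : Type} [CommRing O]
  [IsDomain O] [IsDiscreteValuationRing O] [Algebra ℤ_[p] O] [CharZero O]
  [Finite (ResidueField O)] [Algebra (ZMod p) (ResidueField O)] (c : Ctx W hΔ p O)
  {S : Finset Nat.Primes} {L : LevelRep c.D S}

/-- Ordinary, flat, and flat strictly ordinary shapes. -/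
theorem fits_p {V : VS} (hV : V.LiesOverPrime p) {φ : GG} (hφ : V.IsFrobeniusAt φ p)
    (ord pf : Bool) (hord : ord = true → pf = true ∨ p ∣ c.S0.M0)
    (hpf : pf = true → (p : ℤ) ∣ W.Δ)
    (hid : ord = true ∨ pf = true → ∀ σ ∈ V.inertiaSubgroupIn ℚ,
      ∀ τ ∈ V.inertiaSubgroupIn ℚ,
      ((L.ρ σ : M2 L.R) - Matrix.det (L.ρ σ : M2 L.R) • 1) * ((L.ρ τ : M2 L.R) - 1) = 0)
    (hflat : ord = false → ∃ s : ℕ, ∀ n : ℕ, ∃ (M : Type) (_ : AddCommGroup M)
      (_ : Module L.R M) (_ : Finite M) (actM : GG →* Module.End L.R M),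
      (∀ m : M, p ^ n • m = 0) ∧
      (∀ (σ : GG) (m : M), actM σ (actM σ m) + Matrix.det (L.ρ σ : M2 L.R) • m =
        Matrix.trace (L.ρ σ : M2 L.R) • actM σ m) ∧
      (∀ t : L.R, (∀ m : M, t • m = 0) → t ∈ Ideal.span {(p : L.R) ^ (n - s)}) ∧
      FlatLocal.FlatI V fun σ : FlatLocal.Dec V => actM (σ : GG))
    {E : Submodule (ResidueField O) (L.R → ResidueField O)}
    (hE : pf = true → ∀ d ∈ E, ∃ e : O, ∀ σ ∈ V.inertiaSubgroupIn ℚ, ∀ u w,
      d ((((L.ρ σ : M2 L.R) - Matrix.det (L.ρ σ : M2 L.R) • 1) *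
        ((L.ρ φ : M2 L.R) - algebraMap O L.R e • 1)) u w) = 0) :
    Fits L V E
      ((if ord = false ∧ pf = true then 3 else 4) * deg (p := p) (ResidueField O)) := by
  have hflatz : ord = false → ∀ d : ↥(tanSp L.red), FlatLocal.FlatI V (actC c.D V (resV L V d)) :=
    fun h d => targetFlatClass O p c.p_mem c.D S L V hV (hflat h) d.1 d.2 _ (resV_isCochain L V d)
  cases hp : pf
  · -- no condition on the root
    rw [if_neg (fun h => Bool.false_ne_true h.2)]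
    cases ho : ord
    · obtain ⟨Z, hZ, hdim, hmem⟩ := targetFlat p _ c.D V hV
        (LocalAtP.flat_residual c.D (hflatz ho 0))
      exact ⟨Z, hZ, hdim, fun d hd _ => hmem _ (resV_mem L V ⟨d, hd⟩) (hflatz ho ⟨d, hd⟩)⟩
    · obtain ⟨hd0, hne⟩ := c.at_p ((hord ho).resolve_left (by simp [hp]))
      obtain ⟨v₀, x, hv₀, hx, hxI⟩ := exists_ordLine c hd0 hV
      obtain ⟨Z, hZ, hdim, hmem⟩ :=
        (targetLocalAtP p _ c.D V hV v₀ x hv₀ hx).1 (hne V hV)
      exact ⟨Z, hZ, hdim, fun d hd _ => hmem _ (resV_mem L V ⟨d, hd⟩)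
        ((targetOrdinaryClass O p c.p_mem c.D S L V hV (hid (Or.inl ho)) v₀ x hv₀
          (fun σ => (hx σ).1) hxI d hd _ (resV_isCochain L V ⟨d, hd⟩)).1)⟩
  · obtain ⟨v₀, x, hv₀, hx, hxI⟩ := exists_ordLine c (hpf hp) hV
    have hline : ∀ (d : L.R → ResidueField O) (hd : d ∈ tanSp L.red), d ∈ E →
        LineClass c.D V v₀ x (resV L V ⟨d, hd⟩) := fun d hd hdE => by
      obtain ⟨e, he⟩ := hE hp d hdE
      exact (targetOrdinaryClass O p c.p_mem c.D S L V hV (hid (Or.inr hp)) v₀ x hv₀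
        (fun σ => (hx σ).1) hxI d hd _ (resV_isCochain L V ⟨d, hd⟩)).2
        ⟨φ, hφ.mem_decompositionSubgroup⟩ e hφ he
    cases ho : ord
    · rw [if_pos ⟨rfl, rfl⟩]
      obtain ⟨Z, hZ, hdim, hmem⟩ := (targetLocalAtP p _ c.D V hV v₀ x hv₀ hx).2
      exact ⟨Z, hZ, hdim, fun d hd hdE =>
        hmem _ (resV_mem L V ⟨d, hd⟩) (hline d hd hdE) (hflatz ho ⟨d, hd⟩)⟩
    · rw [if_neg (fun h => Bool.false_ne_true h.1.symm)]
      obtain ⟨Z, hZ, hdim, hmem⟩ := targetOrd p _ c.D V hV v₀ x hv₀ hx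
      exact ⟨Z, hZ, hdim, fun d hd hdE => hmem _ (resV_mem L V ⟨d, hd⟩) (hline d hd hdE)⟩

end FLTAgent.ModLift.PatternBound
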