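import Fermat.Agent.ModLift.Lift.Tower.Interface
import Fermat.Agent.ModLift.Tangent.ClassInterface

/-!
# The numbers of generators of the patterns: interface

A pattern prescribes at the primes of the chain the unramified shape (`U`), the trace of Frobenius
(`F`), otherwise the Steinberg shape of the given sign; at `p` ordinary (`ord`) or flat shapes,
with (`pf`) or without the root of Frobenius; at the scalar primes trivial inertia and, with `xy`,
constant Frobenius.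
-/

set_option autoImplicit false

noncomputable section

open IsLocalRing

namespace FLTAgent.ModLift

open FLTAgent.TWPrimes

local notation "GG" => (AlgebraicClosure ℚ ≃ₐ[ℚ] AlgebraicClosure ℚ)
local notation "VS" => ValuationSubring (AlgebraicClosure ℚ)
local notation "M2" => Matrix (Fin 2) (Fin 2)

/-- The count of tangent vectors of a pattern. -/
def TargetPatternBound : Prop :=
  ∀ (W : WeierstrassCurve ℤ) (hΔ : W.Δ ≠ 0) (p : ℕ) [Fact p.Prime] (O : Type) [CommRing O]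
    [IsDomain O] [IsDiscreteValuationRing O] [Algebra ℤ_[p] O] [Module.Finite ℤ_[p] O]
    [CharZero O] [IsAdicComplete (maximalIdeal O) O] [Finite (ResidueField O)]
    [Algebra (ZMod p) (ResidueField O)] (c : Ctx W hΔ p O), ∀ b : ℕ, ∃ r : ℕ, b ≤ r ∧
    ∀ (n : ℕ) (avoid : Finset Nat.Primes), ∃ Q : Finset Nat.Primes, Q.card = r ∧
      (∀ q ∈ Q, q ∉ avoid ∧ q ∉ c.S ∧ IsAux c.D n q) ∧
      ∀ (L : LevelRep c.D (c.S ∪ Q)) (V : Nat.Primes → VS) (φ : Nat.Primes → GG),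
        (∀ l : Nat.Primes, (V l).LiesOverPrime (l : ℕ) ∧ (V l).IsFrobeniusAt (φ l) (l : ℕ)) →
      ∀ (ord pf xy : Bool) (U F : Finset ℕ) (ε : ℕ → O),
        (ord = true → pf = true ∨ p ∣ c.S0.M0) → (pf = true → (p : ℤ) ∣ W.Δ) →
        (∀ l ∈ c.S, (l : ℕ) ≠ p → (l : ℕ) ∉ c.Y0 → (l : ℕ) ∉ c.S0.T →
          (∀ j < c.m, (l : ℕ) ≠ c.q j) → ∀ σ ∈ (V l).inertiaSubgroupIn ℚ, L.ρ σ = 1) →
        (∀ l ∈ c.S, (l : ℕ) ∈ c.Y0 → ∀ σ ∈ (V l).inertiaSubgroupIn ℚ,
          Matrix.trace (L.ρ σ : M2 L.R) = 2) →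
        (∀ l ∈ c.S, (l : ℕ) = p →
          (ord = true ∨ pf = true → ∀ σ ∈ (V l).inertiaSubgroupIn ℚ,
            ∀ τ ∈ (V l).inertiaSubgroupIn ℚ,
            ((L.ρ σ : M2 L.R) - Matrix.det (L.ρ σ : M2 L.R) • 1) * ((L.ρ τ : M2 L.R) - 1) = 0) ∧
          (ord = false → ∃ s : ℕ, ∀ n : ℕ, ∃ (M : Type) (_ : AddCommGroup M) (_ : Module L.R M)
            (_ : Finite M) (actM : GG →* Module.End L.R M),
            (∀ m : M, p ^ n • m = 0) ∧
            (∀ (σ : GG) (m : M), actM σ (actM σ m) + Matrix.det (L.ρ σ : M2 L.R) • m =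
              Matrix.trace (L.ρ σ : M2 L.R) • actM σ m) ∧
            (∀ t : L.R, (∀ m : M, t • m = 0) → t ∈ Ideal.span {(p : L.R) ^ (n - s)}) ∧
            FlatLocal.FlatI (V l) fun σ : FlatLocal.Dec (V l) => actM (σ : GG))) →
        (∀ j < c.m, ε j ^ 2 = 1 ∧ ∀ l : Nat.Primes, (l : ℕ) = c.q j →
          (c.q j ≠ p → Matrix.trace (c.D.rb (φ l) : M2 (ResidueField O)) =
            residue O (ε j) * ((c.q j : ResidueField O) + 1))) →
      ∀ E : Submodule (ResidueField O) (L.R → ResidueField O), E ≤ tanSp L.red →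
        (∀ d ∈ E,
          (∀ l ∈ c.S, (l : ℕ) ∈ c.S0.T →
            (∀ σ ∈ (V l).inertiaSubgroupIn ℚ, ∀ u w, d ((L.ρ σ : M2 L.R) u w) = 0) ∧
            (xy = true → ∀ u w, d ((L.ρ (φ l) : M2 L.R) u w) = 0)) ∧
          (∀ j < c.m, c.q j ≠ p → ∀ l : Nat.Primes, (l : ℕ) = c.q j →
            (j ∈ U → ∀ σ ∈ (V l).inertiaSubgroupIn ℚ, ∀ u w, d ((L.ρ σ : M2 L.R) u w) = 0) ∧
            (j ∈ F → d (Matrix.trace (L.ρ (φ l) : M2 L.R)) = 0) ∧
            (j ∉ U → j ∈ F ∧ ∀ σ ∈ (V l).inertiaSubgroupIn ℚ, ∀ u w,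
              d ((((L.ρ (φ l) : M2 L.R) - algebraMap O L.R (ε j * c.q j) • 1) *
                ((L.ρ σ : M2 L.R) - 1)) u w) = 0 ∧
              d ((((L.ρ σ : M2 L.R) - 1) *
                ((L.ρ (φ l) : M2 L.R) - algebraMap O L.R (ε j) • 1)) u w) = 0)) ∧
          (pf = true → ∀ l ∈ c.S, (l : ℕ) = p → ∃ e : O, e ^ 2 = 1 ∧
            (∀ σ ∈ (V l).inertiaSubgroupIn ℚ,
              ((c.D.rb σ : M2 (ResidueField O)) -
                  Matrix.det (c.D.rb σ : M2 (ResidueField O)) • 1) *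
                ((c.D.rb (φ l) : M2 (ResidueField O)) - residue O e • 1) = 0) ∧
            ∀ σ ∈ (V l).inertiaSubgroupIn ℚ, ∀ u w,
              d ((((L.ρ σ : M2 L.R) - Matrix.det (L.ρ σ : M2 L.R) • 1) *
                ((L.ρ (φ l) : M2 L.R) - algebraMap O L.R e • 1)) u w) = 0)) →
        FiniteDimensional (ResidueField O) ↥E ∧
          Module.finrank (ResidueField O) ↥E +
            ((Finset.range c.m).filter fun j => j ∈ U ∧ j ∈ F ∧ c.q j ≠ p).card +
            (if ord = false ∧ pf = true then 1 else 0) +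
            (if xy = true then 3 * c.S0.T.card else 0) ≤ r

end FLTAgent.ModLift
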