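import Fermat.Agent.ModLift.Lift.Final.Frame
import Fermat.Agent.ModLift.Tangent.Class.Basic
import Fermat.Agent.Ordinary.Main
import Fermat.Agent.TWPrimes.Group.Bridge

/-!
# The residual line at a multiplicative `p`

Inertia and Frobenius of the curve at `p` fix the residual line; there the character is the
cyclotomic one up to the sign of the unit root.
-/

set_option autoImplicit false
set_option linter.unusedSectionVars false
set_option linter.style.haveILetI false

noncomputable section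

open IsLocalRing

namespace FLTAgent.ModLift.PatternBound

open FLTAgent.TWPrimes FLTAgent.PoitouTate ClassAux

local notation "GG" => (AlgebraicClosure ℚ ≃ₐ[ℚ] AlgebraicClosure ℚ)
local notation "Dec" => ValuationSubring.decompositionSubgroup ℚ
local notation "M2" => Matrix (Fin 2) (Fin 2)

theorem det_sub_smul {A : Type*} [CommRing A] (X : M2 A) (e : A) :
    (X - e • 1).det = X.det - e * X.trace + e * e := by
  simp [Matrix.det_fin_two, Matrix.trace_fin_two]
  ring

theorem map_sub_smul {A B : Type*} [CommRing A] [CommRing B] (f : A →+* B) (X : M2 A) (a : A) :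
    f.mapMatrix (X - a • 1) = f.mapMatrix X - f a • 1 := by
  rw [map_sub]
  congr 1
  ext i j
  by_cases h : i = j
  · subst h; simp
  · simp [h]

variable {W : WeierstrassCurve ℤ} {hΔ : W.Δ ≠ 0} {p : ℕ} [Fact p.Prime] {O : Type} [CommRing O]
  [IsDomain O] [IsDiscreteValuationRing O] [Algebra ℤ_[p] O] [CharZero O]
  [Algebra (ZMod p) (ResidueField O)] (c : Ctx W hΔ p O)

local notation "kO" => ResidueField O

/-- The equations of the curve at `p` modulo the maximal ideal. -/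
theorem residual_ordinary (hd : (p : ℤ) ∣ W.Δ) {V : ValuationSubring (AlgebraicClosure ℚ)}
    (hV : V.LiesOverPrime p) :
    ∃ e : kO, e ^ 2 = 1 ∧ ∀ σ ∈ V.inertiaSubgroupIn ℚ,
      (∀ τ ∈ V.inertiaSubgroupIn ℚ,
        (rbM c.D σ - algebraMap (ZMod p) kO (om p σ) • 1) * (rbM c.D τ - 1) = 0) ∧
      ∀ φ : GG, V.IsFrobeniusAt φ p →
        (rbM c.D σ - algebraMap (ZMod p) kO (om p σ) • 1) * (rbM c.D φ - e • 1) = 0 := by
  obtain ⟨ε, hε, h⟩ := c.curve.ordinary hd
  let f : ℤ_[p] →+* kO := (residue O).comp (algebraMap ℤ_[p] O)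
  have hR : ∀ g : GG, f.mapMatrix (c.curve.r g : M2 ℤ_[p]) = rbM c.D g := fun g => (c.rb_eq g).symm
  have hw : ∀ g : GG, f (Matrix.det (c.curve.r g : M2 ℤ_[p])) = algebraMap (ZMod p) kO (om p g) :=
    fun g => by rw [RingHom.map_det, hR, rbM, c.D.det_cyclo]
  refine ⟨f ε, by rw [← map_pow, hε, map_one], fun σ hσ => ⟨fun τ hτ => ?_, fun φ hφ => ?_⟩⟩
  · have h1 := congrArg f.mapMatrix ((h V hV).1 σ hσ τ hτ)
    rwa [map_mul, map_sub_smul, map_sub, map_one, map_zero, hR, hR, hw] at h1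
  · have h1 := congrArg f.mapMatrix ((h V hV).2 φ hφ σ hσ)
    rwa [map_mul, map_sub_smul, map_sub_smul, map_zero, hR, hR, hw] at h1

/-- The line fixed by the decomposition group at a multiplicative `p`. -/
theorem exists_ordLine (hd : (p : ℤ) ∣ W.Δ) {V : ValuationSubring (AlgebraicClosure ℚ)}
    (hV : V.LiesOverPrime p) :
    ∃ (v₀ : Fin 2 → kO) (x : ↥(Dec V) → kO), v₀ ≠ 0 ∧
      (∀ σ : ↥(Dec V), (rbM c.D (σ : GG)).mulVec v₀ = x σ • v₀ ∧
        x σ ^ 2 = algebraMap (ZMod p) kO (om p (σ : GG)) ^ 2) ∧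
      ∀ σ : ↥(Dec V), (σ : GG) ∈ V.inertiaSubgroupIn ℚ →
        x σ = algebraMap (ZMod p) kO (om p (σ : GG)) := by
  have hp : p.Prime := Fact.out
  have hp3 : 3 ≤ p := by have := hp.two_le; have := c.D.ne_two; omega
  obtain ⟨e, he, heq⟩ := residual_ordinary c hd hV
  set w : GG → kO := fun σ => algebraMap (ZMod p) kO (om p σ) with hw
  have hdet : ∀ σ : GG, (rbM c.D σ).det = w σ := fun σ => c.D.det_cyclo σ
  obtain ⟨σ₀, hσ₀, hmove⟩ := Ordinary.exists_inertia_move_odd hp3 hV (zeta_spec p)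
  have hw0 : w σ₀ ≠ 1 := fun h => hmove <| by
    have h1 : om p σ₀ = 1 := (algebraMap (ZMod p) kO).injective (h.trans (map_one _).symm)
    have h2 := Glue.apply_of_pow_eq_one (p := p) σ₀ (zeta p)
      (by rw [pow_one]; exact (zeta_spec p).pow_eq_one)
    rwa [h1, ZMod.val_one, pow_one] at h2
  set A := rbM c.D σ₀ - w σ₀ • 1 with hA
  have hA0 : A ≠ 0 := fun h => by
    have h1 := hdet σ₀
    rw [show rbM c.D σ₀ = w σ₀ • 1 from sub_eq_zero.1 h, Matrix.det_smul, Matrix.det_one, mul_one,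
      Fintype.card_fin, sq] at h1
    exact hw0 ((mul_eq_left₀ ((map_ne_zero _).2 (PoitouTate.om_ne_zero σ₀))).1 h1)
  obtain ⟨u, hu⟩ : ∃ u, (rbM c.D σ₀ - 1).mulVec u ≠ 0 := by
    by_contra h
    push Not at h
    refine hw0 ?_
    have h0 : rbM c.D σ₀ - 1 = 0 := Matrix.ext_iff_mulVec.2 fun u => by
      rw [h u, Matrix.zero_mulVec]
    rw [← hdet, sub_eq_zero.1 h0, Matrix.det_one]
  set v₀ := (rbM c.D σ₀ - 1).mulVec u with hv
  have hline : ∀ σ ∈ V.inertiaSubgroupIn ℚ, (rbM c.D σ).mulVec v₀ = w σ • v₀ := fun σ hσ => by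
    have h1 := congrArg (fun X : M2 kO => X.mulVec u) ((heq σ hσ).1 σ₀ hσ₀)
    simp only [← Matrix.mulVec_mulVec, Matrix.zero_mulVec] at h1
    rw [← hv, Matrix.sub_mulVec, Matrix.smul_mulVec, Matrix.one_mulVec, sub_eq_zero] at h1
    exact h1
  have hAv : A.mulVec v₀ = 0 := by
    rw [hA, Matrix.sub_mulVec, hline σ₀ hσ₀, Matrix.smul_mulVec, Matrix.one_mulVec, sub_self]
  obtain ⟨φ, hφ⟩ := Frobenius.exists_isFrobeniusAt V p hp hV
  have hfrob : ∃ x : kO, (rbM c.D φ).mulVec v₀ = x • v₀ ∧ x ^ 2 = w φ ^ 2 := by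
    set M := rbM c.D φ - e • 1 with hM
    have hAM : A * M = 0 := (heq σ₀ hσ₀).2 φ hφ
    have hMk : ∀ z, ∃ b : kO, M.mulVec z = b • v₀ := fun z =>
      exists_smul_of_kills hA0 hu hAv (by rw [Matrix.mulVec_mulVec, hAM, Matrix.zero_mulVec])
    obtain ⟨a, ha⟩ := hMk v₀
    have hdet0 : M.det = 0 := by
      by_contra h
      exact hA0 ((Matrix.isUnit_iff_isUnit_det M).2 (IsUnit.mk0 _ h) |>.mul_left_eq_zero.1 hAM)
    have hMM : M * M = a • M := Matrix.ext_iff_mulVec.2 fun z => by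
      obtain ⟨b, hb⟩ := hMk z
      rw [← Matrix.mulVec_mulVec, hb, Matrix.mulVec_smul, ha, Matrix.smul_mulVec, hb, smul_comm]
    have hat : a = M.trace := by
      have h1 := cayley_two M
      rw [hdet0, zero_smul, sub_zero, hMM] at h1
      rcases eq_or_ne M 0 with h0 | h0
      · rw [h0, Matrix.zero_mulVec] at ha
        rw [h0, Matrix.trace_zero]
        exact (smul_eq_zero.1 ha.symm).resolve_right hu
      · exact smul_left_injective kO h0 h1
    have htr : M.trace = (rbM c.D φ).trace - 2 * e := by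
      rw [hM, Matrix.trace_sub, Matrix.trace_smul, Matrix.trace_one, Fintype.card_fin]
      simp [mul_comm]
    refine ⟨e + a, ?_, ?_⟩
    · rw [hM, Matrix.sub_mulVec, Matrix.smul_mulVec, Matrix.one_mulVec, sub_eq_iff_eq_add] at ha
      rw [ha, add_smul, add_comm]
    · rw [hM, det_sub_smul, hdet] at hdet0
      rw [htr] at hat
      have hwx : w φ = e * (e + a) := by linear_combination hdet0 - e * hat
      rw [hwx, mul_pow, he, one_mul]
  obtain ⟨F, hF, hrb⟩ := c.D.level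
  haveI := hF
  have key : ∀ σ ∈ Dec V, ∃ x : kO, (rbM c.D σ).mulVec v₀ = x • v₀ ∧ x ^ 2 = w σ ^ 2 := by
    refine dec_induction hp hV hφ (F := F) ⟨1, by simp [rbM], by simp [hw, om]⟩ ?_ hfrob
      (fun σ hσ => ⟨_, hline σ hσ, rfl⟩) fun ν _ hν => ?_
    · rintro a - b - ⟨x, hx, hx2⟩ ⟨y, hy, hy2⟩
      have hm : rbM c.D (a * b) = rbM c.D a * rbM c.D b := by simp [rbM]
      refine ⟨x * y, ?_, ?_⟩
      · rw [hm, ← Matrix.mulVec_mulVec, hy, Matrix.mulVec_smul, hx, smul_smul, mul_comm]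
      · rw [mul_pow, hx2, hy2, ← hdet (a * b), hm, Matrix.det_mul, hdet, hdet, mul_pow]
    · have h1 : rbM c.D ν = 1 := by rw [rbM, hrb ν hν, Units.val_one]
      refine ⟨1, by rw [h1, Matrix.one_mulVec, one_smul], ?_⟩
      rw [← hdet ν, h1, Matrix.det_one]
  choose x hx hx2 using fun σ : ↥(Dec V) => key σ σ.2
  exact ⟨v₀, x, hu, fun σ => ⟨hx σ, hx2 σ⟩,
    fun σ hσ => smul_left_cancel_vec hu ((hx σ).symm.trans (hline σ hσ))⟩

end FLTAgent.ModLift.PatternBound
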