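import Fermat.Agent.ModLift.Lift.Bound.Interface
import Fermat.Agent.ModLift.Lift.Bound.Line
import Fermat.Agent.ModLift.Tangent.Level
import Fermat.Agent.ModLift.Tangent.LocalAway
import Fermat.Agent.ModLift.Tangent.LocalAtP
import Fermat.Agent.ModLift.Tangent.Class.Main
import Fermat.Agent.TWPrimes.Local.Unip

/-!
# The local space of a pattern at each prime of the chain
-/

set_option autoImplicit false
set_option linter.unusedSectionVars false
set_option linter.style.haveILetI false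

noncomputable section

open IsLocalRing

namespace FLTAgent.ModLift.PatternBound

open FLTAgent.TWPrimes FLTAgent.PoitouTate ClassAux LevelTangent

local notation "GG" => (AlgebraicClosure ℚ ≃ₐ[ℚ] AlgebraicClosure ℚ)
local notation "VS" => ValuationSubring (AlgebraicClosure ℚ)
local notation "Dec" => ValuationSubring.decompositionSubgroup ℚ
local notation "M2" => Matrix (Fin 2) (Fin 2)

variable {O : Type} [CommRing O] [IsDomain O] [IsDiscreteValuationRing O] [Finite (ResidueField O)]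
  {p : ℕ} [Fact p.Prime] [Algebra (ZMod p) (ResidueField O)]
  {D : Datum p (ResidueField O)} {S : Finset Nat.Primes} (L : LevelRep D S)

/-- The cocycle of a tangent vector on a decomposition group. -/
def resV (V : VS) (d : ↥(tanSp L.red)) : ↥(Dec V) → W (ResidueField O) :=
  fun σ => cV L d (σ : GG)

theorem resV_mem (V : VS) (d : ↥(tanSp L.red)) :
    resV L V d ∈ Z1 (ad D 0) (Dec V).subtype := by
  obtain ⟨⟨F, hF, h⟩, -⟩ := cV_mem_Z1 L d
  exact ⟨⟨F, hF, fun g s hs => h g s hs⟩, fun g g' => cV_mul L d g g'⟩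

theorem resV_isCochain (V : VS) (d : ↥(tanSp L.red)) : L.IsCochain V d.1 (resV L V d) :=
  fun _ => rfl

theorem trace_resV (V : VS) (d : ↥(tanSp L.red)) (σ : ↥(Dec V)) :
    Matrix.trace ((resV L V d σ).1 * rbM D (σ : GG)) =
      d.1 (Matrix.trace (L.ρ (σ : GG) : M2 L.R)) := by
  show Matrix.trace (L.dCoch d.1 (σ : GG) * (D.rb (σ : GG) : M2 (ResidueField O))) = _
  rw [dCoch_mul_rb, Matrix.trace_fin_two, Matrix.trace_fin_two, d.2.1]
  rfl

/-- A local space of dimension at most `N` containing the cocycles of a family. -/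
def Fits (V : VS) (E : Submodule (ResidueField O) (L.R → ResidueField O)) (N : ℕ) : Prop :=
  ∃ Z, IsLoc D V Z ∧ Module.finrank (ZMod p) ↥Z ≤ N ∧
    ∀ (d : L.R → ResidueField O) (hd : d ∈ tanSp L.red), d ∈ E → resV L V ⟨d, hd⟩ ∈ Z

variable {L} {V : VS} {E : Submodule (ResidueField O) (L.R → ResidueField O)}

/-- Trivial inertia. -/
theorem fits_unr {l : Nat.Primes} (hV : V.LiesOverPrime (l : ℕ))
    (hI : ∀ σ ∈ V.inertiaSubgroupIn ℚ, D.rb σ = 1)
    (hE : ∀ d ∈ E, ∀ σ ∈ V.inertiaSubgroupIn ℚ, ∀ u w, d ((L.ρ σ : M2 L.R) u w) = 0) :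
    Fits L V E (3 * deg (p := p) (ResidueField O)) :=
  ⟨unramZ D V, ⟨fun _ hc => ((mem_unramZ D).1 hc).1, LocalAway.B1_le_unram D hI,
      (finrank_unramZ D hV).1⟩, (finrank_unramZ D hV).2,
    fun d hd hdE => (mem_unramZ D).2 ⟨resV_mem L V ⟨d, hd⟩, fun σ hσ =>
      cV_eq_zero L ⟨d, hd⟩ (hE d hdE (σ : GG) hσ)⟩⟩

/-- Trivial inertia and constant Frobenius at a scalar prime. -/
theorem fits_const {l : Nat.Primes} (hV : V.LiesOverPrime (l : ℕ)) {φ : GG}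
    (hφ : V.IsFrobeniusAt φ (l : ℕ)) (hI : ∀ σ ∈ V.inertiaSubgroupIn ℚ, D.rb σ = 1)
    (hsc : ∃ a : ResidueField O, rbM D φ = a • 1)
    (hE : ∀ d ∈ E, (∀ σ ∈ V.inertiaSubgroupIn ℚ, ∀ u w, d ((L.ρ σ : M2 L.R) u w) = 0) ∧
      ∀ u w, d ((L.ρ φ : M2 L.R) u w) = 0) :
    Fits L V E 0 := by
  have hdec : ∀ σ ∈ Dec V, ∃ a : ResidueField O, rbM D σ = a • 1 := by
    obtain ⟨F, hF, hrb⟩ := D.level
    haveI := hF
    refine dec_induction l.2 hV hφ (F := F) ⟨1, by simp [rbM]⟩ ?_ hsc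
      (fun σ hσ => ⟨1, by simp [rbM, hI σ hσ]⟩) fun ν _ hν => ⟨1, by simp [rbM, hrb ν hν]⟩
    rintro a - b - ⟨x, hx⟩ ⟨y, hy⟩
    exact ⟨x * y, by
      rw [show rbM D (a * b) = rbM D a * rbM D b by simp [rbM], hx, hy, Matrix.smul_mul, one_mul,
        smul_smul]⟩
  refine ⟨⊥, ⟨bot_le, ?_, inferInstance⟩, ?_, fun d hd hdE => ?_⟩
  · rintro _ ⟨A, rfl⟩
    refine Submodule.mem_bot (ZMod p) |>.2 (funext fun σ => ?_)
    obtain ⟨a, ha⟩ := hdec (σ : GG) σ.2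
    rw [d0_apply, Subgroup.coe_subtype, Pi.zero_apply, sub_eq_zero]
    refine Subtype.ext ?_
    show adM D 0 (σ : GG) A.1 = A.1
    rw [adM_zero, show (D.rb (σ : GG) : M2 (ResidueField O)) * A.1 =
      A.1 * (D.rb (σ : GG) : M2 (ResidueField O)) by
        rw [show (D.rb (σ : GG) : M2 (ResidueField O)) = a • 1 from ha]; simp,
      mul_assoc, ← Units.val_mul, mul_inv_cancel, Units.val_one, mul_one]
  · rw [finrank_bot]
  · exact (Submodule.mem_bot (ZMod p)).2 (eq_zero_of_frob l.2 hV hφ (resV_mem L V ⟨d, hd⟩)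
      (cV_eq_zero L ⟨d, hd⟩ (hE d hdE).2) fun σ hσ =>
      cV_eq_zero L ⟨d, hd⟩ ((hE d hdE).1 (σ : GG) hσ))

/-- Unipotent ramified inertia with constant trace. -/
theorem fits_unip {l : Nat.Primes} (hl : (l : ℕ) ≠ p) (hV : V.LiesOverPrime (l : ℕ))
    (hram : ∃ σ ∈ V.inertiaSubgroupIn ℚ, D.rb σ ≠ 1)
    (hunip : ∀ σ ∈ V.inertiaSubgroupIn ℚ, (rbM D σ - 1) ^ 2 = 0)
    (htr : ∀ σ ∈ V.inertiaSubgroupIn ℚ, Matrix.trace (L.ρ σ : M2 L.R) = 2) :
    Fits L V E (3 * deg (p := p) (ResidueField O)) := by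
  obtain ⟨Z, hZ, hdim, hmem⟩ := targetUnip p _ D l V hl hV hram hunip
  refine ⟨Z, hZ, hdim, fun d hd _ => hmem _ (resV_mem L V ⟨d, hd⟩) fun σ hσ => ?_⟩
  exact (trace_resV L V ⟨d, hd⟩ σ).trans (by
    rw [htr (σ : GG) hσ, show (2 : L.R) = ((2 : ℕ) : L.R) by norm_num]
    exact Glue.d_natCast hd 2)

variable (hpO : (p : O) ∈ maximalIdeal O)
include hpO

/-- The primes of the chain: unramified, constant trace, or Steinberg of a given sign. -/
theorem fits_chain {l : Nat.Primes} (hl : (l : ℕ) ≠ p) (hV : V.LiesOverPrime (l : ℕ)) {φ : GG}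
    (hφ : V.IsFrobeniusAt φ (l : ℕ)) (hI : ∀ σ ∈ V.inertiaSubgroupIn ℚ, D.rb σ = 1)
    (hns : ∀ a : ResidueField O, rbM D φ ≠ a • 1) {ε : O} (hε : ε ^ 2 = 1)
    (htr : Matrix.trace (rbM D φ) = residue O ε * (((l : ℕ) : ResidueField O) + 1))
    (U F : Prop) [Decidable U] [Decidable F]
    (hE : ∀ d ∈ E, (U → ∀ σ ∈ V.inertiaSubgroupIn ℚ, ∀ u w, d ((L.ρ σ : M2 L.R) u w) = 0) ∧
      (F → d (Matrix.trace (L.ρ φ : M2 L.R)) = 0) ∧
      (¬ U → F ∧ ∀ σ ∈ V.inertiaSubgroupIn ℚ, ∀ u w,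
        d ((((L.ρ φ : M2 L.R) - algebraMap O L.R (ε * (l : ℕ)) • 1) *
          ((L.ρ σ : M2 L.R) - 1)) u w) = 0 ∧
        d ((((L.ρ σ : M2 L.R) - 1) *
          ((L.ρ φ : M2 L.R) - algebraMap O L.R ε • 1)) u w) = 0)) :
    Fits L V E ((if U ∧ F then 2 else 3) * deg (p := p) (ResidueField O)) := by
  set φD : ↥(Dec V) := ⟨φ, hφ.mem_decompositionSubgroup⟩
  obtain ⟨hU, hUF, hLine⟩ := targetLocalAway p _ D l V hl hV hI φD hφ hns
  by_cases hu : U
  · have hz : ∀ (d : L.R → ResidueField O) (hd : d ∈ tanSp L.red), d ∈ E →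
        UnrClass V (resV L V ⟨d, hd⟩) := fun d hd hdE σ hσ =>
      cV_eq_zero L ⟨d, hd⟩ ((hE d hdE).1 hu (σ : GG) hσ)
    by_cases hf : F
    · obtain ⟨Z, hZ, hdim, hmem⟩ := hUF
      rw [if_pos ⟨hu, hf⟩]
      exact ⟨Z, hZ, hdim, fun d hd hdE => hmem _ (resV_mem L V ⟨d, hd⟩) (hz d hd hdE)
        ((trace_resV L V ⟨d, hd⟩ φD).trans ((hE d hdE).2.1 hf))⟩
    · obtain ⟨Z, hZ, hdim, hmem⟩ := hU
      rw [if_neg (fun h => hf h.2)]
      exact ⟨Z, hZ, hdim, fun d hd hdE => hmem _ (resV_mem L V ⟨d, hd⟩) (hz d hd hdE)⟩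
  · rw [if_neg (fun h => hu h.1)]
    set e : ResidueField O := residue O ε
    have he : e ^ 2 = 1 := by rw [← map_pow, hε, map_one]
    obtain ⟨hdet, -⟩ := det_congr (L := L) (Submodule.zero_mem (tanSp L.red))
      (DetCyclo.cycloExponent_frobenius (p := p) l.2 hl hV hφ 1)
    obtain ⟨v₀, hv₀, heig⟩ : ∃ v : Fin 2 → ResidueField O, v ≠ 0 ∧
        (rbM D φ - (e * (l : ℕ)) • 1).mulVec v = 0 := by
      refine Matrix.exists_mulVec_eq_zero_iff.2 ?_
      rw [det_sub_smul, hdet, htr]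
      linear_combination (-((l : ℕ) : ResidueField O)) * he
    rw [Matrix.sub_mulVec, Matrix.smul_mulVec, Matrix.one_mulVec, sub_eq_zero] at heig
    obtain ⟨x, hx, hcls⟩ :=
      targetSpecialClass O p hpO D S L l V hl hV hI φD hφ hns ε v₀ hε hv₀ heig htr
    obtain ⟨Z, hZ, hdim, hmem⟩ := hLine v₀ e hv₀ he heig x hx
    refine ⟨Z, hZ, hdim, fun d hd hdE => hmem _ (resV_mem L V ⟨d, hd⟩) ?_⟩
    obtain ⟨hf, heq⟩ := (hE d hdE).2.2 hu
    exact hcls d hd ((hE d hdE).2.1 hf) heq _ (resV_isCochain L V ⟨d, hd⟩)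

end FLTAgent.ModLift.PatternBound
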