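import Fermat.Agent.ModLift.Lift.Bound.AtP

/-!
# The numbers of generators of the patterns

The local spaces of a pattern, summed in the count of tangent vectors.
-/

set_option autoImplicit false
set_option linter.unusedSectionVars false
set_option linter.style.haveILetI false

noncomputable section

open IsLocalRing

namespace FLTAgent.ModLift

open FLTAgent.TWPrimes PatternBound ClassAux LevelTangent

local notation "GG" => (AlgebraicClosure ℚ ≃ₐ[ℚ] AlgebraicClosure ℚ)
local notation "VS" => ValuationSubring (AlgebraicClosure ℚ)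
local notation "M2" => Matrix (Fin 2) (Fin 2)

/-- The count of tangent vectors of a pattern. -/
theorem targetPatternBound : TargetPatternBound := by
  intro W hΔ p _ O _ _ _ _ _ _ _ _ _ c b
  classical
  have hbad : c.D.bad ⊆ c.S := fun l hl => c.mem_S.2 (c.S0_bad l hl)
  obtain ⟨r, hbr, hr⟩ := targetLevelTangent O p c.p_mem c.D c.S hbad b
  refine ⟨r, hbr, fun n avoid => ?_⟩
  obtain ⟨Q, hQc, hQ, hbound⟩ := hr n avoid
  refine ⟨Q, hQc, hQ, fun L V φ hVφ ord pf xy U F ε hord hpf hunr hY hP hε E hE hcond => ?_⟩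
  haveI : Module.Finite (ZMod p) (ResidueField O) := Module.Finite.of_finite
  set f : ℕ := deg (p := p) (ResidueField O) with hf
  have hf0 : 0 < f := Module.finrank_pos
  set J : Finset ℕ := (Finset.range c.m).filter fun j => j ∈ U ∧ j ∈ F ∧ c.q j ≠ p with hJ
  let save : ℕ → ℕ := fun l => (J.filter fun j => c.q j = l).card +
    (if l = p then (if ord = false ∧ pf = true then 1 else 0) else 0) +
    (if l ∈ c.S0.T then (if xy = true then 3 else 0) else 0)
  -- the local spaces
  have hloc : ∀ l ∈ c.S, ∃ N, Fits L (V l) E N ∧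
      N + save (l : ℕ) * f ≤ (3 + if (l : ℕ) = p then 1 else 0) * f := by
    intro l hl
    obtain ⟨hV, hφ⟩ := hVφ l
    by_cases hlp : (l : ℕ) = p
    · have hT : (l : ℕ) ∉ c.S0.T := fun h => (c.T_facts h).2.1 hlp
      have hJl : J.filter (fun j => c.q j = (l : ℕ)) = ∅ :=
        Finset.filter_false_of_mem fun j hj e => (Finset.mem_filter.1 hj).2.2.2 (e.trans hlp)
      obtain ⟨hid, hflat⟩ := hP l hl hlp
      refine ⟨_, fits_p c (hlp ▸ hV) (hlp ▸ hφ) ord pf hord hpf hid hflat fun h d hd => ?_, ?_⟩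
      · obtain ⟨e, -, -, he⟩ := (hcond d hd).2.2 h l hl hlp
        exact ⟨e, he⟩
      · simp only [save, hJl, Finset.card_empty, if_pos hlp, if_neg hT, ← hf]
        split_ifs <;> omega
    have hfacts : ∀ σ ∈ (V l).inertiaSubgroupIn ℚ, (l : ℕ) ∉ c.Y0 → c.D.rb σ = 1 :=
      fun σ hσ h => c.unramified l l.2 hlp h (V l) hV σ hσ
    by_cases hch : ∃ j < c.m, (l : ℕ) = c.q j
    · obtain ⟨j, hj, hlj⟩ := hch
      have hjp : c.q j ≠ p := hlj ▸ hlp
      obtain ⟨hY', hT', -⟩ := c.q_facts hj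
      rw [← hlj] at hY' hT'
      obtain ⟨hεj, htr⟩ := hε j hj
      refine ⟨_, fits_chain (L := L) (E := E) c.p_mem hlp hV hφ (fun σ hσ => hfacts σ hσ hY')
        ((c.q_spec j hj).2 hjp (V l) (hlj ▸ hV) (φ l) (hlj ▸ hφ)) hεj
        (by rw [hlj]; exact htr l hlj hjp) (j ∈ U) (j ∈ F) (fun d hd => ?_), ?_⟩
      · obtain ⟨h1, h2, h3⟩ := (hcond d hd).2.1 j hj hjp l hlj
        exact ⟨h1, h2, fun h => by simpa only [hlj] using h3 h⟩
      · simp only [save, if_neg hlp, if_neg hT', ← hf]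
        by_cases hUF : j ∈ U ∧ j ∈ F
        · rw [if_pos hUF]
          have : (J.filter fun i => c.q i = (l : ℕ)).card ≤ 1 :=
            Finset.card_le_one.2 fun a ha b hb => by
              rw [Finset.mem_filter, hJ, Finset.mem_filter, Finset.mem_range] at ha hb
              exact c.q_inj ha.1.1 hb.1.1 (ha.2.trans hb.2.symm)
          have := Nat.mul_le_mul_right f this
          simp only [add_zero] at *
          omega
        · rw [if_neg hUF, Finset.filter_false_of_mem fun i hi e => hUF ?_]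
          · simp
          · rw [hJ, Finset.mem_filter, Finset.mem_range] at hi
            obtain rfl := c.q_inj hi.1 hj (e.trans hlj)
            exact ⟨hi.2.1, hi.2.2.1⟩
    have hJl : J.filter (fun j => c.q j = (l : ℕ)) = ∅ := Finset.filter_false_of_mem fun j hj e =>
      hch ⟨j, Finset.mem_range.1 (Finset.mem_filter.1 hj).1, e.symm⟩
    by_cases hlY : (l : ℕ) ∈ c.Y0
    · have hT : (l : ℕ) ∉ c.S0.T := fun h => (c.T_facts h).2.2.2.1 hlY
      obtain ⟨-, -, -, hspec⟩ := c.Y0_spec l hlY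
      refine ⟨_, fits_unip (L := L) (E := E) hlp hV (hspec (V l) hV).1 (hspec (V l) hV).2
        (hY l hl hlY), ?_⟩
      simp only [save, hJl, Finset.card_empty, if_neg hlp, if_neg hT, ← hf]
      omega
    have hI : ∀ σ ∈ (V l).inertiaSubgroupIn ℚ, c.D.rb σ = 1 := fun σ hσ => hfacts σ hσ hlY
    by_cases hlT : (l : ℕ) ∈ c.S0.T
    · by_cases hxy : xy = true
      · refine ⟨0, fits_const (L := L) (E := E) hV hφ hI
          ((c.T_scalar l hlT).2.2 (V l) hV (φ l) hφ) fun d hd => ?_, ?_⟩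
        · exact ⟨((hcond d hd).1 l hl hlT).1, ((hcond d hd).1 l hl hlT).2 hxy⟩
        · simp only [save, hJl, Finset.card_empty, if_neg hlp, if_pos hlT, if_pos hxy]
          omega
      · refine ⟨_, fits_unr (L := L) (E := E) hV hI fun d hd => ((hcond d hd).1 l hl hlT).1, ?_⟩
        simp only [save, hJl, Finset.card_empty, if_neg hlp, if_pos hlT, if_neg hxy, ← hf]
        omega
    · push Not at hch
      refine ⟨_, fits_unr (L := L) (E := E) hV hI fun d hd σ hσ u w => ?_, ?_⟩
      · have hdT := hE hd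
        rw [hunr l hl hlp hlY hlT hch σ hσ, Units.val_one, Matrix.one_apply]
        split_ifs
        · exact Glue.d_one hdT
        · exact Glue.d_zero hdT
      · simp only [save, hJl, Finset.card_empty, if_neg hlp, if_neg hlT, ← hf]
        omega
  choose N hfit hN using hloc
  choose Zf hZ hdim hmem using hfit
  let Zloc : ∀ q : Nat.Primes, Submodule (ZMod p)
      (↥(ValuationSubring.decompositionSubgroup ℚ (V q)) → TWPrimes.W (ResidueField O)) :=
    fun q => if h : q ∈ c.S then Zf q h else ⊥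
  have hZeq : ∀ q (h : q ∈ c.S), Zloc q = Zf q h := fun q h => dif_pos h
  obtain ⟨hfin, hle⟩ := hbound L V (fun q => (hVφ q).1) Zloc
    (fun q h => by rw [hZeq q h]; exact hZ q h) E hE (fun d hd q h =>
      ⟨_, by rw [hZeq q h]; exact hmem q h d (hE hd) hd, fun σ => rfl⟩)
  refine ⟨hfin, ?_⟩
  have hsum : ∀ q ∈ c.S, ((Module.finrank (ZMod p) ↥(Zloc q) : ℤ) - 3 * f) ≤
      (((if (q : ℕ) = p then 1 else 0 : ℕ) : ℤ) - (save (q : ℕ) : ℤ)) * f := fun q h => by
    have h1 : (Module.finrank (ZMod p) ↥(Zf q h) : ℤ) ≤ (N q h : ℤ) := Int.ofNat_le.2 (hdim q h)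
    have h2 : (N q h : ℤ) + (save (q : ℕ) : ℤ) * f ≤
        (3 + ((if (q : ℕ) = p then 1 else 0 : ℕ) : ℤ)) * f := by exact_mod_cast hN q h
    rw [hZeq q h]
    linarith
  have hmap : (c.S.image fun q : Nat.Primes => (q : ℕ)) = c.S0.bad := by
    ext l
    rw [Finset.mem_image]
    exact ⟨fun ⟨a, ha, e⟩ => e ▸ c.mem_S.1 ha, fun h => ⟨⟨l, c.S0.bad_prime l h⟩, c.mem_S.2 h, rfl⟩⟩
  have hS : ∀ g : ℕ → ℕ, ∑ q ∈ c.S, g (q : ℕ) = ∑ l ∈ c.S0.bad, g l := fun g => by
    rw [← hmap, Finset.sum_image]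
    exact fun x _ y _ e => Subtype.ext e
  have htotal : ∑ q ∈ c.S, save (q : ℕ) = J.card +
      (if ord = false ∧ pf = true then 1 else 0) + (if xy = true then 3 * c.S0.T.card else 0) := by
    have hJmaps : ∀ j ∈ J, c.q j ∈ c.S0.bad := fun j hj => by
      have hj' := Finset.mem_range.1 (Finset.mem_filter.1 hj).1
      exact c.lev_mem_bad (c.q_prime j hj') le_rfl ((c.q_dvd_lev_iff hj' le_rfl).2 hj')
    have hT : c.S0.bad ∩ c.S0.T = c.S0.T := Finset.inter_eq_right.2 fun t ht =>
      c.S0.level_mem t (c.T_facts ht).1 (c.T_facts ht).2.2.2.2.2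
    rw [hS save, Finset.sum_add_distrib, Finset.sum_add_distrib,
      ← Finset.card_eq_sum_card_fiberwise hJmaps, Finset.sum_ite_eq', if_pos c.S0.p_mem,
      Finset.sum_ite_mem, hT, Finset.sum_const, smul_eq_mul]
    split_ifs <;> omega
  have hone : ∑ q ∈ c.S, (if (q : ℕ) = p then 1 else 0 : ℕ) = 1 := by
    rw [hS fun l => if l = p then 1 else 0, Finset.sum_ite_eq', if_pos c.S0.p_mem]
  have key := Finset.sum_le_sum hsum
  rw [← Finset.sum_mul] at key
  rw [Finset.sum_sub_distrib (fun q : Nat.Primes => (((if (q : ℕ) = p then 1 else 0 : ℕ) : ℤ))),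
    ← Nat.cast_sum c.S (fun q : Nat.Primes => (if (q : ℕ) = p then 1 else 0 : ℕ)),
    ← Nat.cast_sum c.S (fun q : Nat.Primes => save (q : ℕ)), hone, htotal] at key
  have hE' : (Module.finrank (ResidueField O) ↥E + 1 : ℤ) * f ≤ ((r : ℤ) + (((1 : ℕ) : ℤ) -
      ((J.card + (if ord = false ∧ pf = true then 1 else 0) +
        (if xy = true then 3 * c.S0.T.card else 0) : ℕ) : ℤ))) * f := by linarith
  have := le_of_mul_le_mul_right hE' (by exact_mod_cast hf0)
  push_cast at this
  split_ifs at this ⊢ <;> omega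

end FLTAgent.ModLift
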